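import Fermat.Agent.S27.Grp.Spec
import Fermat.Agent.S25.H265.GDCSemi

/-!
# S27, block GRP, leaf ALG-BC (helper523): tensor products of gluing data commute with base change

Pure algebra.  Everything is derived from the instance-free universal property `S25.H265.SemiUP`
of a semilinear base change:

* `exists_bilin_lift` / `bilin_ext` / `bifunext` : bi-semilinear maps out of a pair of base
  changes extend uniquely to bilinear maps;
* `tmulMap b b'` : `n ⊗ n' ↦ b n ⊗ b' n'`, and `semiUP_tmulMap` : it is a base change;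
* `exists_tensor_bc` : a bilinear map with bijective lift base-changes to one with bijective lift;
* `isTensor_of_isBC` : the statement for gluing data over arbitrary cospans;
* `tensBC k : Grp.Stmt.TensBC k`.
-/

set_option autoImplicit false
set_option linter.style.haveILetI false

universe u

open scoped TensorProduct

namespace Fermat.Agent.S27.H523

open Fermat.Agent.S25 Fermat.Agent.S25.H265 Fermat.Agent.S27

noncomputable section

section Bilin

variable {R R' : Type u} [CommRing R] [CommRing R'] {ρ : R →+* R'}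
  {N N' : Type u} [AddCommGroup N] [Module R N] [AddCommGroup N'] [Module R N']
  {M M' : Type u} [AddCommGroup M] [Module R' M] [AddCommGroup M'] [Module R' M']
  {b : N →ₛₗ[ρ] M} {b' : N' →ₛₗ[ρ] M'}

/-- A bi-semilinear map out of a pair of base changes extends to a bilinear map. -/
theorem exists_bilin_lift (h : SemiUP ρ b) (h' : SemiUP ρ b')
    (Q : Type u) [AddCommMonoid Q] [Module R' Q] (f : N → N' → Q)
    (hadd₁ : ∀ n₁ n₂ n', f (n₁ + n₂) n' = f n₁ n' + f n₂ n')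
    (hsmul₁ : ∀ r n n', f (r • n) n' = ρ r • f n n')
    (hadd₂ : ∀ n n₁' n₂', f n (n₁' + n₂') = f n n₁' + f n n₂')
    (hsmul₂ : ∀ r n n', f n (r • n') = ρ r • f n n') :
    ∃ γ : M →ₗ[R'] M' →ₗ[R'] Q, ∀ n n', γ (b n) (b' n') = f n n' := by
  have inner : ∀ n, ∃ g : M' →ₗ[R'] Q, ∀ n', g (b' n') = f n n' := fun n => by
    obtain ⟨g, hg, -⟩ := h' Q
      { toFun := f n, map_add' := hadd₂ n, map_smul' := fun r n' => hsmul₂ r n n' }
    exact ⟨g, hg⟩
  choose g hg using inner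
  have hgadd : ∀ n₁ n₂, g (n₁ + n₂) = g n₁ + g n₂ := fun n₁ n₂ => by
    apply h'.hom_ext (RingHom.id R')
    intro n'
    rw [LinearMap.add_apply, hg, hg, hg, hadd₁]
  have hgsmul : ∀ r n, g (r • n) = ρ r • g n := fun r n => by
    apply h'.hom_ext (RingHom.id R')
    intro n'
    rw [LinearMap.smul_apply, hg, hg, hsmul₁]
  obtain ⟨γ, hγ, -⟩ := h (M' →ₗ[R'] Q)
    { toFun := g, map_add' := hgadd, map_smul' := hgsmul }
  refine ⟨γ, fun n n' => ?_⟩
  rw [hγ]
  exact hg n n'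

/-- Two bilinear maps out of a pair of base changes agreeing on the images agree. -/
theorem bilin_ext (h : SemiUP ρ b) (h' : SemiUP ρ b')
    {Q : Type u} [AddCommMonoid Q] [Module R' Q] (γ₁ γ₂ : M →ₗ[R'] M' →ₗ[R'] Q)
    (hγ : ∀ n n', γ₁ (b n) (b' n') = γ₂ (b n) (b' n')) : γ₁ = γ₂ := by
  apply h.hom_ext (RingHom.id R')
  intro n
  apply h'.hom_ext (RingHom.id R')
  intro n'
  exact hγ n n'

/-- Function-level extensionality in two variables, semilinear over `σ`. -/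
theorem bifunext (h : SemiUP ρ b) (h' : SemiUP ρ b')
    {R'' : Type u} [CommRing R''] (σ : R' →+* R'')
    {Q : Type u} [AddCommMonoid Q] [Module R'' Q] (F₁ F₂ : M → M' → Q)
    (hadd₁l : ∀ x y m', F₁ (x + y) m' = F₁ x m' + F₁ y m')
    (hsmul₁l : ∀ r x m', F₁ (r • x) m' = σ r • F₁ x m')
    (hadd₁r : ∀ m x y, F₁ m (x + y) = F₁ m x + F₁ m y)
    (hsmul₁r : ∀ r m x, F₁ m (r • x) = σ r • F₁ m x)
    (hadd₂l : ∀ x y m', F₂ (x + y) m' = F₂ x m' + F₂ y m')
    (hsmul₂l : ∀ r x m', F₂ (r • x) m' = σ r • F₂ x m')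
    (hadd₂r : ∀ m x y, F₂ m (x + y) = F₂ m x + F₂ m y)
    (hsmul₂r : ∀ r m x, F₂ m (r • x) = σ r • F₂ m x)
    (hF : ∀ n n', F₁ (b n) (b' n') = F₂ (b n) (b' n')) (m : M) (m' : M') :
    F₁ m m' = F₂ m m' := by
  have step : ∀ n m', F₁ (b n) m' = F₂ (b n) m' := fun n m' =>
    h'.funext σ (F₁ (b n)) (F₂ (b n)) (hadd₁r _) (fun r x => hsmul₁r r _ x) (hadd₂r _)
      (fun r x => hsmul₂r r _ x) (hF n) m'
  exact h.funext σ (fun m => F₁ m m') (fun m => F₂ m m') (fun x y => hadd₁l x y m')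
    (fun r x => hsmul₁l r x m') (fun x y => hadd₂l x y m') (fun r x => hsmul₂l r x m')
    (fun n => step n m') m

end Bilin

section Tmul

variable {R R' : Type u} [CommRing R] [CommRing R'] {ρ : R →+* R'}
  {N N' : Type u} [AddCommGroup N] [Module R N] [AddCommGroup N'] [Module R N']
  {M M' : Type u} [AddCommGroup M] [Module R' M] [AddCommGroup M'] [Module R' M']

/-- The additive map `n ⊗ n' ↦ b n ⊗ b' n'`. -/
def tmulAdd (b : N →ₛₗ[ρ] M) (b' : N' →ₛₗ[ρ] M') : N ⊗[R] N' →+ M ⊗[R'] M' :=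
  TensorProduct.liftAddHom
    { toFun := fun n =>
        { toFun := fun n' => b n ⊗ₜ[R'] b' n'
          map_zero' := by rw [map_zero, TensorProduct.tmul_zero]
          map_add' := fun x y => by rw [map_add, TensorProduct.tmul_add] }
      map_zero' := by
        apply AddMonoidHom.ext
        intro n'
        change b 0 ⊗ₜ[R'] b' n' = 0
        rw [map_zero, TensorProduct.zero_tmul]
      map_add' := fun x y => by
        apply AddMonoidHom.ext
        intro n'
        change b (x + y) ⊗ₜ[R'] b' n' = b x ⊗ₜ[R'] b' n' + b y ⊗ₜ[R'] b' n'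
        rw [map_add, TensorProduct.add_tmul] }
    (fun r n n' => by
      change b (r • n) ⊗ₜ[R'] b' n' = b n ⊗ₜ[R'] b' (r • n')
      rw [LinearMap.map_smulₛₗ, LinearMap.map_smulₛₗ, TensorProduct.smul_tmul])

theorem tmulAdd_tmul (b : N →ₛₗ[ρ] M) (b' : N' →ₛₗ[ρ] M') (n : N) (n' : N') :
    tmulAdd b b' (n ⊗ₜ[R] n') = b n ⊗ₜ[R'] b' n' :=
  TensorProduct.liftAddHom_tmul _ _ n n'

theorem tmulAdd_smul (b : N →ₛₗ[ρ] M) (b' : N' →ₛₗ[ρ] M') (r : R) (x : N ⊗[R] N') :
    tmulAdd b b' (r • x) = ρ r • tmulAdd b b' x := by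
  induction x using TensorProduct.induction_on with
  | zero => rw [smul_zero, map_zero, smul_zero]
  | tmul n n' =>
    rw [TensorProduct.smul_tmul', tmulAdd_tmul, tmulAdd_tmul, LinearMap.map_smulₛₗ,
      TensorProduct.smul_tmul']
  | add x y hx hy => rw [smul_add, map_add, hx, hy, map_add, smul_add]

/-- The semilinear map `n ⊗ n' ↦ b n ⊗ b' n'`. -/
def tmulMap (b : N →ₛₗ[ρ] M) (b' : N' →ₛₗ[ρ] M') : N ⊗[R] N' →ₛₗ[ρ] M ⊗[R'] M' where
  toFun := fun x => tmulAdd b b' x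
  map_add' := fun x y => map_add (tmulAdd b b') x y
  map_smul' := fun r x => tmulAdd_smul b b' r x

theorem tmulMap_tmul (b : N →ₛₗ[ρ] M) (b' : N' →ₛₗ[ρ] M') (n : N) (n' : N') :
    tmulMap b b' (n ⊗ₜ[R] n') = b n ⊗ₜ[R'] b' n' :=
  tmulAdd_tmul b b' n n'

variable {b : N →ₛₗ[ρ] M} {b' : N' →ₛₗ[ρ] M'}

/-- The tensor product of two semilinear base changes is a semilinear base change. -/
theorem semiUP_tmulMap (h : SemiUP ρ b) (h' : SemiUP ρ b') : SemiUP ρ (tmulMap b b') := by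
  intro Q _ _ g
  obtain ⟨γ, hγ⟩ := exists_bilin_lift h h' Q (fun n n' => g (n ⊗ₜ[R] n'))
    (fun n₁ n₂ n' => by rw [TensorProduct.add_tmul, map_add])
    (fun r n n' => by rw [← TensorProduct.smul_tmul', LinearMap.map_smulₛₗ])
    (fun n n₁' n₂' => by rw [TensorProduct.tmul_add, map_add])
    (fun r n n' => by rw [TensorProduct.tmul_smul, LinearMap.map_smulₛₗ])
  refine ⟨TensorProduct.lift γ, fun x => ?_, fun y hy => ?_⟩
  · induction x using TensorProduct.induction_on with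
    | zero => rw [map_zero, map_zero, map_zero]
    | tmul n n' => rw [tmulMap_tmul, TensorProduct.lift.tmul, hγ]
    | add x y hx hy => rw [map_add, map_add, map_add, hx, hy]
  · apply TensorProduct.ext'
    intro m m'
    rw [TensorProduct.lift.tmul]
    have : (TensorProduct.mk R' M M').compr₂ y = γ := by
      apply bilin_ext h h'
      intro n n'
      rw [LinearMap.compr₂_apply, TensorProduct.mk_apply, ← tmulMap_tmul, hy, hγ]
    rw [← this, LinearMap.compr₂_apply, TensorProduct.mk_apply]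

end Tmul

section Core

variable {R R' : Type u} [CommRing R] [CommRing R'] {ρ : R →+* R'}
  {N N' N'' : Type u} [AddCommGroup N] [Module R N] [AddCommGroup N'] [Module R N']
  [AddCommGroup N''] [Module R N'']
  {M M' M'' : Type u} [AddCommGroup M] [Module R' M] [AddCommGroup M'] [Module R' M']
  [AddCommGroup M''] [Module R' M'']
  {b : N →ₛₗ[ρ] M} {b' : N' →ₛₗ[ρ] M'} {b'' : N'' →ₛₗ[ρ] M''}

/-- Base change of a "tensor product structure": if `β` exhibits `N''` as `N ⊗ N'`, then the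
induced bilinear map on the base changes exhibits `M''` as `M ⊗ M'`. -/
theorem exists_tensor_bc (h : SemiUP ρ b) (h' : SemiUP ρ b') (h'' : SemiUP ρ b'')
    (β : N →ₗ[R] N' →ₗ[R] N'') (hβ : Function.Bijective (TensorProduct.lift β)) :
    ∃ γ : M →ₗ[R'] M' →ₗ[R'] M'', (∀ n n', γ (b n) (b' n') = b'' (β n n')) ∧
      Function.Bijective (TensorProduct.lift γ) := by
  obtain ⟨γ, hγ⟩ := exists_bilin_lift h h' M'' (fun n n' => b'' (β n n'))
    (fun n₁ n₂ n' => by rw [map_add, LinearMap.add_apply, map_add])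
    (fun r n n' => by rw [map_smul, LinearMap.smul_apply, LinearMap.map_smulₛₗ])
    (fun n n₁' n₂' => by rw [map_add, map_add])
    (fun r n n' => by rw [map_smul, LinearMap.map_smulₛₗ])
  refine ⟨γ, hγ, ?_⟩
  let e : N ⊗[R] N' ≃ₗ[R] N'' := LinearEquiv.ofBijective (TensorProduct.lift β) hβ
  have hc₀ : SemiUP ρ (b''.comp (e : N ⊗[R] N' →ₗ[R] N'')) := h''.equiv_comp e
  have heq : ((TensorProduct.lift γ : M ⊗[R'] M' →ₗ[R'] M'').comp (tmulMap b b') :
      N ⊗[R] N' →ₛₗ[ρ] M'') = b''.comp (e : N ⊗[R] N' →ₗ[R] N'') := by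
    apply LinearMap.ext
    intro x
    induction x using TensorProduct.induction_on with
    | zero => rw [map_zero, map_zero]
    | tmul n n' =>
      rw [LinearMap.comp_apply, tmulMap_tmul, TensorProduct.lift.tmul, hγ, LinearMap.comp_apply]
      change _ = b'' (TensorProduct.lift β (n ⊗ₜ[R] n'))
      rw [TensorProduct.lift.tmul]
    | add x y hx hy => rw [map_add, map_add, hx, hy]
  have hc : SemiUP ρ ((TensorProduct.lift γ : M ⊗[R'] M' →ₗ[R'] M'').comp (tmulMap b b') :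
      N ⊗[R] N' →ₛₗ[ρ] M'') := by
    rw [heq]
    exact hc₀
  have hlift : SemiUP (RingHom.id R') (TensorProduct.lift γ) :=
    SemiUP.of_comp (semiUP_tmulMap h h') hc
  obtain ⟨e', he'⟩ := SemiUP.exists_equiv (semiUP_id (R := R') (N := M ⊗[R'] M')) hlift
  have : (TensorProduct.lift γ : M ⊗[R'] M' → M'') = e' := by
    funext x
    exact (he' x).symm
  rw [this]
  exact e'.bijective

end Core

section Glue

variable {A R₀ R₁ R₀₁ : Type u} [CommRing A] [CommRing R₀] [CommRing R₁]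
    [CommRing R₀₁] [Algebra A R₀] [Algebra A R₁] [Algebra A R₀₁] [Algebra R₀ R₀₁]
    [Algebra R₁ R₀₁] [IsScalarTower A R₀ R₀₁] [IsScalarTower A R₁ R₀₁]
    {A' R₀' R₁' R₀₁' : Type u} [CommRing A'] [CommRing R₀'] [CommRing R₁']
    [CommRing R₀₁'] [Algebra A' R₀'] [Algebra A' R₁'] [Algebra A' R₀₁'] [Algebra R₀' R₀₁']
    [Algebra R₁' R₀₁'] [IsScalarTower A' R₀' R₀₁'] [IsScalarTower A' R₁' R₀₁']

/-- Base change of gluing data preserves tensor products (arbitrary cospans). -/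
theorem isTensor_of_isBC (ρ₀ : R₀ →+* R₀') (ρ₁ : R₁ →+* R₁') (ρ₀₁ : R₀₁ →+* R₀₁')
    (G G' G'' : GlueDatum A R₀ R₁ R₀₁) (H H' H'' : GlueDatum A' R₀' R₁' R₀₁')
    (hT : IsTensor G G' G'') (hH : GlueDatum.IsBC ρ₀ ρ₁ ρ₀₁ G H)
    (hH' : GlueDatum.IsBC ρ₀ ρ₁ ρ₀₁ G' H') (hH'' : GlueDatum.IsBC ρ₀ ρ₁ ρ₀₁ G'' H'') :
    IsTensor H H' H'' := by
  obtain ⟨T⟩ := hT
  obtain ⟨B⟩ := hH
  obtain ⟨B'⟩ := hH'
  obtain ⟨B''⟩ := hH''
  have u₀ := semiUP_of_isSemilinearBaseChange ρ₀ B.b₀ B.isBaseChange₀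
  have u₀' := semiUP_of_isSemilinearBaseChange ρ₀ B'.b₀ B'.isBaseChange₀
  have u₀'' := semiUP_of_isSemilinearBaseChange ρ₀ B''.b₀ B''.isBaseChange₀
  have u₁ := semiUP_of_isSemilinearBaseChange ρ₁ B.b₁ B.isBaseChange₁
  have u₁' := semiUP_of_isSemilinearBaseChange ρ₁ B'.b₁ B'.isBaseChange₁
  have u₁'' := semiUP_of_isSemilinearBaseChange ρ₁ B''.b₁ B''.isBaseChange₁
  have u₀₁ := semiUP_of_isSemilinearBaseChange ρ₀₁ B.b₀₁ B.isBaseChange₀₁
  have u₀₁' := semiUP_of_isSemilinearBaseChange ρ₀₁ B'.b₀₁ B'.isBaseChange₀₁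
  have u₀₁'' := semiUP_of_isSemilinearBaseChange ρ₀₁ B''.b₀₁ B''.isBaseChange₀₁
  obtain ⟨γ₀, hγ₀, bij₀⟩ := exists_tensor_bc u₀ u₀' u₀'' T.β₀ T.bijective₀
  obtain ⟨γ₁, hγ₁, bij₁⟩ := exists_tensor_bc u₁ u₁' u₁'' T.β₁ T.bijective₁
  obtain ⟨γ₀₁, hγ₀₁, bij₀₁⟩ := exists_tensor_bc u₀₁ u₀₁' u₀₁'' T.β₀₁ T.bijective₀₁
  have sm₀ : ∀ (K : GlueDatum A' R₀' R₁' R₀₁') (r : R₀') (x : K.N₀),
      K.r₀ (r • x) = algebraMap R₀' R₀₁' r • K.r₀ x := fun K r x => by
    rw [map_smul, algebraMap_smul]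
  have sm₁ : ∀ (K : GlueDatum A' R₀' R₁' R₀₁') (r : R₁') (x : K.N₁),
      K.r₁ (r • x) = algebraMap R₁' R₀₁' r • K.r₁ x := fun K r x => by
    rw [map_smul, algebraMap_smul]
  refine ⟨⟨γ₀, γ₁, γ₀₁, ?_, ?_, bij₀, bij₁, bij₀₁⟩⟩
  · intro s s'
    refine bifunext u₀ u₀' (algebraMap R₀' R₀₁') (fun s s' => γ₀₁ (H.r₀ s) (H'.r₀ s'))
      (fun s s' => H''.r₀ (γ₀ s s')) ?_ ?_ ?_ ?_ ?_ ?_ ?_ ?_ ?_ s s'
    · intro x y m'
      simp only [map_add, LinearMap.add_apply]
    · intro r x m'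
      simp only [sm₀, map_smul, LinearMap.smul_apply]
    · intro m x y
      simp only [map_add]
    · intro r m x
      simp only [sm₀, map_smul]
    · intro x y m'
      simp only [map_add, LinearMap.add_apply]
    · intro r x m'
      simp only [map_smul, LinearMap.smul_apply, sm₀]
    · intro m x y
      simp only [map_add]
    · intro r m x
      simp only [map_smul, sm₀]
    · intro n n'
      rw [← B.comm₀, ← B'.comm₀, hγ₀₁, T.comm₀, B''.comm₀, hγ₀]
  · intro s s'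
    refine bifunext u₁ u₁' (algebraMap R₁' R₀₁') (fun s s' => γ₀₁ (H.r₁ s) (H'.r₁ s'))
      (fun s s' => H''.r₁ (γ₁ s s')) ?_ ?_ ?_ ?_ ?_ ?_ ?_ ?_ ?_ s s'
    · intro x y m'
      simp only [map_add, LinearMap.add_apply]
    · intro r x m'
      simp only [sm₁, map_smul, LinearMap.smul_apply]
    · intro m x y
      simp only [map_add]
    · intro r m x
      simp only [sm₁, map_smul]
    · intro x y m'
      simp only [map_add, LinearMap.add_apply]
    · intro r x m'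
      simp only [map_smul, LinearMap.smul_apply, sm₁]
    · intro m x y
      simp only [map_add]
    · intro r m x
      simp only [map_smul, sm₁]
    · intro n n'
      rw [← B.comm₁, ← B'.comm₁, hγ₀₁, T.comm₁, B''.comm₁, hγ₁]

end Glue

/-- **TENS-BC** (leaf ALG-BC of block GRP): base change of gluing data along `A → A'` preserves
tensor products. -/
theorem tensBC (k : Type u) [Field k] : Grp.Stmt.TensBC k := by
  intro B₀ B₁ B₀₁ _ _ _ _ _ _ _ _ _ _ A A' _ _ _ _ φ G G' G'' H H' H'' hT hH hH' hH''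
  exact isTensor_of_isBC _ _ _ G G' G'' H H' H'' hT hH hH' hH''

end

end Fermat.Agent.S27.H523
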